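import Mathlib

/-!
# MOONSHOT S19, block (R1)(iii), part (D2): descent of lattices along a dense pair

`(R ⊂ K) ⊂ (R₁ ⊂ K₁)` is a *dense pair* with common uniformizer `ℓ` when `K = R[1/ℓ]`,
`K₁ = R₁[1/ℓ]`, `R₁ = R + ℓⁿ R₁` for all `n`, `R₁ ∩ K = R` and `ℓ` lies in the Jacobson radical of
`R₁` (model: `ℤ_(ℓ) ⊂ ℚ` inside `ℤ_ℓ ⊂ ℚ_ℓ`).

Main result `DensePair.exists_basis`: for a finite-dimensional `K`-space `U`, every finitely
generated `R₁`-submodule `L` of `K₁ ⊗[K] U` that spans it over `K₁` is spanned over `R₁` by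
`1 ⊗ b i` for a `K`-basis `b` of `U` (so `L = R₁ · (L ∩ U)` and `L ∩ U = ⊕ R b i`).

Mathlib only.  Branch-only work.
-/

set_option autoImplicit false
set_option linter.unusedSectionVars false
set_option linter.style.haveILetI false

open TensorProduct

namespace Fermat.Agent.FF2.Desc

/-- A dense pair `(R ⊂ K) ⊂ (R₁ ⊂ K₁)` with common uniformizer `ℓ` (`ℓ₁` is `ℓ` seen in `R₁`). -/
structure DensePair (R K R₁ K₁ : Type*) [CommRing R] [Field K] [Algebra R K]
    [CommRing R₁] [Field K₁] [Algebra R₁ K₁] [Algebra K K₁] (ℓ : R) (ℓ₁ : R₁) : Prop where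
  inj₁ : Function.Injective (algebraMap R₁ K₁)
  hℓ : algebraMap R₁ K₁ ℓ₁ = algebraMap K K₁ (algebraMap R K ℓ)
  ℓ_ne : algebraMap R K ℓ ≠ 0
  frac : ∀ x : K, ∃ (a : ℕ) (r : R), algebraMap R K ℓ ^ a * x = algebraMap R K r
  frac₁ : ∀ x : K₁, ∃ (a : ℕ) (r : R₁), algebraMap R₁ K₁ ℓ₁ ^ a * x = algebraMap R₁ K₁ r
  le : ∀ r : R, ∃ r₁ : R₁, algebraMap R₁ K₁ r₁ = algebraMap K K₁ (algebraMap R K r)
  dense : ∀ (x : R₁) (n : ℕ), ∃ (r : R) (y : R₁),
    algebraMap R₁ K₁ x = algebraMap K K₁ (algebraMap R K r) + algebraMap R₁ K₁ (ℓ₁ ^ n * y)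
  inter : ∀ x : K, algebraMap K K₁ x ∈ Set.range (algebraMap R₁ K₁) →
    x ∈ Set.range (algebraMap R K)
  rad : ℓ₁ ∈ Ideal.jacobson (⊥ : Ideal R₁)

variable {R K R₁ K₁ : Type*} [CommRing R] [Field K] [Algebra R K]
  [CommRing R₁] [Field K₁] [Algebra R₁ K₁] [Algebra K K₁] {ℓ : R} {ℓ₁ : R₁}
variable {U : Type*} [AddCommGroup U] [Module K U]

/-- The inclusion `u ↦ 1 ⊗ u` of `U` into `K₁ ⊗[K] U`. -/
noncomputable def incl (K₁ : Type*) [Field K₁] [Algebra K K₁] : U →ₗ[K] K₁ ⊗[K] U :=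
  (TensorProduct.mk K K₁ U) 1

@[simp] theorem incl_apply (u : U) : incl (K := K) K₁ u = (1 : K₁) ⊗ₜ[K] u := rfl

omit [CommRing R] [Algebra R K] [CommRing R₁] [Algebra R₁ K₁] in
theorem one_tmul_smul (k : K) (u : U) :
    (1 : K₁) ⊗ₜ[K] (k • u) = algebraMap K K₁ k • ((1 : K₁) ⊗ₜ[K] u) := by
  rw [TensorProduct.tmul_smul, TensorProduct.smul_tmul', TensorProduct.smul_tmul', Algebra.smul_def,
    mul_one, smul_eq_mul, mul_one]

/-- Modules over a field are torsion-free over any subring. -/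
theorem isTorsionFree_of_injective {A B : Type*} [CommRing A] [Field B] [Algebra A B]
    (hinj : Function.Injective (algebraMap A B)) (M : Type*) [AddCommGroup M] [Module B M]
    [Module A M] [IsScalarTower A B M] : Module.IsTorsionFree A M :=
  haveI : Nontrivial A := (algebraMap A B).domain_nontrivial
  Module.IsTorsionFree.comap (S := B) (algebraMap A B)
    (fun _ hr => IsRegular.of_ne_zero ((map_ne_zero_iff _ hinj).2 hr.ne_zero))
    (fun r m => algebraMap_smul B r m)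

namespace DensePair

variable (h : DensePair R K R₁ K₁ ℓ ℓ₁)
include h

theorem ℓ₁_ne : algebraMap R₁ K₁ ℓ₁ ≠ 0 := by
  rw [h.hℓ]
  exact (map_ne_zero_iff _ (algebraMap K K₁).injective).2 h.ℓ_ne

/-- Elements of the `K₁`-span of an `R₁`-submodule are carried into it by a power of `ℓ`. -/
theorem exists_pow_smul_mem {M : Type*} [AddCommGroup M] [Module K₁ M] [Module R₁ M]
    [IsScalarTower R₁ K₁ M] (L : Submodule R₁ M) {x : M}
    (hx : x ∈ Submodule.span K₁ (L : Set M)) : ∃ a : ℕ, ℓ₁ ^ a • x ∈ L := by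
  induction hx using Submodule.span_induction with
  | mem x hx => exact ⟨0, by simpa using hx⟩
  | zero => exact ⟨0, by simp⟩
  | add x y _ _ hx hy =>
    obtain ⟨a, ha⟩ := hx
    obtain ⟨b, hb⟩ := hy
    refine ⟨a + b, ?_⟩
    rw [smul_add]
    refine L.add_mem ?_ ?_
    · rw [pow_add, mul_comm, mul_smul]
      exact L.smul_mem _ ha
    · rw [pow_add, mul_smul]
      exact L.smul_mem _ hb
  | smul k x _ hx =>
    obtain ⟨a, ha⟩ := hx
    obtain ⟨b, r, hr⟩ := h.frac₁ k
    refine ⟨b + a, ?_⟩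
    have : ℓ₁ ^ (b + a) • k • x = r • ℓ₁ ^ a • x := by
      rw [pow_add, mul_smul, ← algebraMap_smul K₁ (ℓ₁ ^ b), ← algebraMap_smul K₁ r,
        smul_comm (ℓ₁ ^ a) k x, ← mul_smul, map_pow, hr]
    rw [this]
    exact L.smul_mem _ ha


variable [Module R U] [IsScalarTower R K U]

/-- The rational points of `L`: `{u | 1 ⊗ u ∈ L}`, an `R`-submodule of `U`. -/
def ratPoints (L : Submodule R₁ (K₁ ⊗[K] U)) : Submodule R U where
  carrier := {u | (1 : K₁) ⊗ₜ[K] u ∈ L}
  add_mem' {u v} hu hv := by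
    change (1 : K₁) ⊗ₜ[K] (u + v) ∈ L
    rw [TensorProduct.tmul_add]
    exact L.add_mem hu hv
  zero_mem' := by simp
  smul_mem' r u hu := by
    change (1 : K₁) ⊗ₜ[K] (r • u) ∈ L
    obtain ⟨r₁, hr₁⟩ := h.le r
    have : (1 : K₁) ⊗ₜ[K] (r • u) = r₁ • ((1 : K₁) ⊗ₜ[K] u) := by
      rw [← algebraMap_smul K r u, one_tmul_smul, ← hr₁, algebraMap_smul]
    rw [this]
    exact L.smul_mem _ hu

theorem mem_ratPoints {L : Submodule R₁ (K₁ ⊗[K] U)} {u : U} :
    u ∈ h.ratPoints L ↔ (1 : K₁) ⊗ₜ[K] u ∈ L := Iff.rfl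


/-- Density on the level of fields: every `k : K₁` is `q + ℓⁿ y` with `q ∈ K`, `y ∈ R₁`. -/
theorem dense_field (k : K₁) (n : ℕ) : ∃ (q : K) (y : R₁),
    k = algebraMap K K₁ q + algebraMap R₁ K₁ (ℓ₁ ^ n * y) := by
  obtain ⟨a, x, hx⟩ := h.frac₁ k
  obtain ⟨r, y, hy⟩ := h.dense x (n + a)
  refine ⟨(algebraMap R K ℓ ^ a)⁻¹ * algebraMap R K r, y, ?_⟩
  have hne : algebraMap R₁ K₁ ℓ₁ ^ a ≠ 0 := pow_ne_zero _ h.ℓ₁_ne
  have hk : k = (algebraMap R₁ K₁ ℓ₁ ^ a)⁻¹ * algebraMap R₁ K₁ x := by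
    rw [← hx, ← mul_assoc, inv_mul_cancel₀ hne, one_mul]
  rw [hk, hy]
  simp only [map_mul, map_inv₀, map_pow, ← h.hℓ, pow_add]
  field_simp

variable [FiniteDimensional K U]

section Basis


/-- A power of `ℓ` carries the standard lattice into `L`. -/
theorem exists_pow_smul_basis_mem {ι : Type*} [Fintype ι] (e : Module.Basis ι K U)
    (L : Submodule R₁ (K₁ ⊗[K] U))
    (hspan : Submodule.span K₁ (L : Set (K₁ ⊗[K] U)) = ⊤) :
    ∃ c : ℕ, ∀ i, ℓ₁ ^ c • ((1 : K₁) ⊗ₜ[K] e i) ∈ L := by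
  have hex : ∀ i, ∃ a : ℕ, ℓ₁ ^ a • ((1 : K₁) ⊗ₜ[K] e i) ∈ L := fun i =>
    h.exists_pow_smul_mem L (by rw [hspan]; exact Submodule.mem_top)
  choose a ha using hex
  refine ⟨∑ i, a i, fun i => ?_⟩
  have hle : a i ≤ ∑ j, a j := Finset.single_le_sum (f := a) (fun _ _ => Nat.zero_le _)
    (Finset.mem_univ i)
  obtain ⟨d, hd⟩ := Nat.exists_eq_add_of_le hle
  rw [hd, pow_add, mul_comm, mul_smul]
  exact L.smul_mem _ (ha i)

/-- Every vector is congruent to a rational one modulo `ℓ • L`. -/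
theorem exists_sub_mem_smul {ι : Type*} [Fintype ι] (e : Module.Basis ι K U)
    (L : Submodule R₁ (K₁ ⊗[K] U))
    (hspan : Submodule.span K₁ (L : Set (K₁ ⊗[K] U)) = ⊤) (m : K₁ ⊗[K] U) :
    ∃ u : U, m - (1 : K₁) ⊗ₜ[K] u ∈ (Ideal.span {ℓ₁}) • L := by
  classical
  obtain ⟨c, hc⟩ := h.exists_pow_smul_basis_mem e L hspan
  set e₁ := Algebra.TensorProduct.basis K₁ e with he₁
  have hap : ∀ i, ∃ (q : K) (y : R₁), e₁.repr m i =
      algebraMap K K₁ q + algebraMap R₁ K₁ (ℓ₁ ^ (c + 1) * y) := fun i =>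
    h.dense_field (e₁.repr m i) (c + 1)
  choose q y hqy using hap
  refine ⟨∑ i, q i • e i, ?_⟩
  have hm : m = ∑ i, e₁.repr m i • e₁ i := (e₁.sum_repr m).symm
  have h1 : (1 : K₁) ⊗ₜ[K] (∑ i, q i • e i) = ∑ i, algebraMap K K₁ (q i) • e₁ i := by
    rw [TensorProduct.tmul_sum]
    refine Finset.sum_congr rfl fun i _ => ?_
    rw [one_tmul_smul, he₁, Algebra.TensorProduct.basis_apply]
  have h2 : m - (1 : K₁) ⊗ₜ[K] (∑ i, q i • e i) =
      ∑ i, ℓ₁ • (y i • (ℓ₁ ^ c • ((1 : K₁) ⊗ₜ[K] e i))) := by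
    rw [h1]
    conv_lhs => rw [hm]
    rw [← Finset.sum_sub_distrib]
    refine Finset.sum_congr rfl fun i _ => ?_
    rw [hqy i, add_smul, add_sub_cancel_left, algebraMap_smul, he₁,
      Algebra.TensorProduct.basis_apply, ← mul_smul, ← mul_smul]
    congr 1
    ring
  rw [h2]
  refine Submodule.sum_mem _ fun i _ => ?_
  exact Submodule.smul_mem_smul (Ideal.mem_span_singleton_self _) (L.smul_mem _ (hc i))

end Basis

/-- **`L = R₁ · (L ∩ U)`** for a lattice `L` of `K₁ ⊗ U`. -/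
theorem span_ratPoints (L : Submodule R₁ (K₁ ⊗[K] U)) (hfg : L.FG)
    (hspan : Submodule.span K₁ (L : Set (K₁ ⊗[K] U)) = ⊤) :
    Submodule.span R₁ ((fun u : U => (1 : K₁) ⊗ₜ[K] u) '' (h.ratPoints L : Set U)) = L := by
  apply le_antisymm
  · rw [Submodule.span_le]
    rintro _ ⟨u, hu, rfl⟩
    exact hu
  · refine Submodule.le_of_le_smul_of_le_jacobson_bot (I := Ideal.span {ℓ₁}) hfg ?_ ?_
    · rw [Ideal.span_le]
      rintro _ rfl
      exact h.rad
    · intro m hm
      obtain ⟨u, hu⟩ := h.exists_sub_mem_smul (Module.finBasis K U) L hspan m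
      have huL : (1 : K₁) ⊗ₜ[K] u ∈ L := by
        have h3 : (1 : K₁) ⊗ₜ[K] u = m - (m - (1 : K₁) ⊗ₜ[K] u) := by abel
        rw [h3]
        exact L.sub_mem hm (Submodule.smul_le_right hu)
      have h4 : m = (1 : K₁) ⊗ₜ[K] u + (m - (1 : K₁) ⊗ₜ[K] u) := by abel
      rw [h4]
      exact Submodule.add_mem_sup (Submodule.subset_span ⟨u, huL, rfl⟩) hu


/-- A power of `ℓ` carries `L` into the standard lattice. -/
theorem exists_pow_smul_mem_span_basis {ι : Type*} [Fintype ι] (e : Module.Basis ι K U)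
    (L : Submodule R₁ (K₁ ⊗[K] U)) (hfg : L.FG) :
    ∃ c : ℕ, ∀ m ∈ L, ℓ₁ ^ c • m ∈
      Submodule.span R₁ (Set.range (Algebra.TensorProduct.basis K₁ e)) := by
  classical
  set E₀ := Submodule.span R₁ (Set.range (Algebra.TensorProduct.basis K₁ e)) with hE₀
  have htop : Submodule.span K₁ (E₀ : Set (K₁ ⊗[K] U)) = ⊤ := by
    rw [eq_top_iff, ← (Algebra.TensorProduct.basis K₁ e).span_eq]
    exact Submodule.span_mono Submodule.subset_span
  obtain ⟨S, hS⟩ := hfg
  have hex : ∀ g : K₁ ⊗[K] U, ∃ a : ℕ, ℓ₁ ^ a • g ∈ E₀ := fun g =>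
    h.exists_pow_smul_mem E₀ (by rw [htop]; exact Submodule.mem_top)
  choose a ha using hex
  refine ⟨∑ g ∈ S, a g, fun m hm => ?_⟩
  rw [← hS] at hm
  induction hm using Submodule.span_induction with
  | mem g hg =>
    have hle : a g ≤ ∑ g' ∈ S, a g' := Finset.single_le_sum (f := a) (fun _ _ => Nat.zero_le _) hg
    obtain ⟨d, hd⟩ := Nat.exists_eq_add_of_le hle
    rw [hd, pow_add, mul_comm, mul_smul]
    exact E₀.smul_mem _ (ha g)
  | zero => simp
  | add x y _ _ hx hy => rw [smul_add]; exact E₀.add_mem hx hy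
  | smul r x _ hx => rw [smul_comm]; exact E₀.smul_mem _ hx

variable [IsFractionRing R K]

variable [IsDomain R] [IsPrincipalIdealRing R]

/-- The rational points of a lattice form a finitely generated `R`-module. -/
theorem ratPoints_fg (L : Submodule R₁ (K₁ ⊗[K] U)) (hfg : L.FG) : (h.ratPoints L).FG := by
  classical
  set e := Module.finBasis K U with he
  obtain ⟨c, hc⟩ := h.exists_pow_smul_mem_span_basis e L hfg
  set N : Submodule R U := Submodule.span R (Set.range e) with hN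
  have hNfg : N.FG := Submodule.fg_span (Set.finite_range _)
  haveI : IsNoetherian R N := isNoetherian_of_fg_of_noetherian N hNfg
  let μ : U →ₗ[R] U := (ℓ ^ c) • LinearMap.id
  have hμ : ∀ u, μ u = ℓ ^ c • u := fun u => rfl
  have hμinj : Function.Injective μ := by
    intro u v huv
    rw [hμ, hμ, ← algebraMap_smul K, ← algebraMap_smul K (ℓ ^ c) v] at huv
    have hne : algebraMap R K (ℓ ^ c) ≠ 0 := by rw [map_pow]; exact pow_ne_zero _ h.ℓ_ne
    exact smul_right_injective U hne huv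
  haveI : IsDomain R₁ := h.inj₁.isDomain (algebraMap R₁ K₁)
  haveI : Module.IsTorsionFree R₁ K₁ := isTorsionFree_of_injective h.inj₁ K₁
  haveI : Module.IsTorsionFree R K := isTorsionFree_of_injective (IsFractionRing.injective R K) K
  have hle : (h.ratPoints L).map μ ≤ N := by
    rintro _ ⟨u, hu, rfl⟩
    rw [hN, Module.Basis.mem_span_iff_repr_mem]
    intro i
    have h1 : ℓ₁ ^ c • ((1 : K₁) ⊗ₜ[K] u) ∈
        Submodule.span R₁ (Set.range (Algebra.TensorProduct.basis K₁ e)) := hc _ hu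
    rw [Module.Basis.mem_span_iff_repr_mem] at h1
    obtain ⟨x, hx⟩ := h1 i
    apply h.inter
    refine ⟨x, ?_⟩
    rw [hx, hμ, ← algebraMap_smul K₁ (ℓ₁ ^ c), map_smul, Algebra.TensorProduct.basis_repr_tmul,
      one_smul, Finsupp.smul_apply, Finsupp.mapRange_apply, ← algebraMap_smul K (ℓ ^ c) u,
      map_smul, Finsupp.smul_apply, smul_eq_mul, smul_eq_mul, map_mul, map_pow, map_pow, h.hℓ,
      map_pow]
  have hfgmap : ((h.ratPoints L).map μ).FG := by
    have h2 : (Submodule.comap N.subtype ((h.ratPoints L).map μ)).FG :=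
      IsNoetherian.noetherian _
    have h3 := h2.map N.subtype
    rwa [Submodule.map_comap_subtype, inf_eq_right.2 hle] at h3
  exact Submodule.fg_of_fg_map_injective μ hμinj hfgmap

/-- **(D2) Descent of lattices along a dense pair.**  A lattice `L` of `K₁ ⊗[K] U` is spanned over
`R₁` by `1 ⊗ b i` for a `K`-basis `b` of `U`; the `R`-span of `b` is `L ∩ U`. -/
theorem exists_basis (L : Submodule R₁ (K₁ ⊗[K] U)) (hfg : L.FG)
    (hspan : Submodule.span K₁ (L : Set (K₁ ⊗[K] U)) = ⊤) :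
    ∃ (n : ℕ) (b : Module.Basis (Fin n) K U),
      Submodule.span R₁ (Set.range fun i => (1 : K₁) ⊗ₜ[K] b i) = L ∧
      Submodule.span R (Set.range b) = h.ratPoints L := by
  classical
  set H := h.ratPoints L with hH
  haveI : Module.Finite R H := Module.Finite.iff_fg.2 (h.ratPoints_fg L hfg)
  haveI : Module.IsTorsionFree R U := isTorsionFree_of_injective (IsFractionRing.injective R K) U
  haveI : Module.IsTorsionFree R H :=
    Function.Injective.moduleIsTorsionFree H.subtype H.subtype_injective (fun _ _ => rfl)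
  haveI : Module.Free R H := Module.free_of_finite_type_torsion_free'
  let bH := Module.finBasis R H
  set n := Module.finrank R H with hn
  let v : Fin n → U := fun i => (bH i : U)
  have hvR : LinearIndependent R v :=
    bH.linearIndependent.map' H.subtype (Submodule.ker_subtype H)
  have hvK : LinearIndependent K v := (LinearIndependent.iff_fractionRing R K).1 hvR
  have hspanR : Submodule.span R (Set.range v) = H := by
    have h1 : Set.range v = H.subtype '' Set.range bH := by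
      rw [← Set.range_comp]; rfl
    rw [h1, Submodule.span_image, bH.span_eq, Submodule.map_top, Submodule.range_subtype]
  have hvtop : ⊤ ≤ Submodule.span K (Set.range v) := by
    intro u _
    obtain ⟨a, ha⟩ := h.exists_pow_smul_mem L (x := (1 : K₁) ⊗ₜ[K] u)
      (by rw [hspan]; exact Submodule.mem_top)
    have hu : ℓ ^ a • u ∈ H := by
      rw [hH, mem_ratPoints, ← algebraMap_smul K, one_tmul_smul, map_pow, map_pow, ← h.hℓ,
        ← map_pow, algebraMap_smul]
      exact ha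
    rw [← hspanR] at hu
    have hu' : ℓ ^ a • u ∈ Submodule.span K (Set.range v) :=
      Submodule.span_le_restrictScalars R K _ hu
    have hne : algebraMap R K (ℓ ^ a) ≠ 0 := by rw [map_pow]; exact pow_ne_zero _ h.ℓ_ne
    rw [← algebraMap_smul K] at hu'
    have := (Submodule.span K (Set.range v)).smul_mem (algebraMap R K (ℓ ^ a))⁻¹ hu'
    rwa [← mul_smul, inv_mul_cancel₀ hne, one_smul] at this
  let b : Module.Basis (Fin n) K U := Module.Basis.mk hvK hvtop
  have hb : ∀ i, b i = v i := fun i => by simp [b]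
  have hbv : (b : Fin n → U) = v := funext hb
  refine ⟨n, b, ?_, by rw [hbv, hspanR]⟩
  rw [← h.span_ratPoints L hfg hspan]
  apply le_antisymm
  · rw [Submodule.span_le]
    rintro _ ⟨i, rfl⟩
    refine Submodule.subset_span ⟨b i, ?_, rfl⟩
    rw [hb]
    exact (bH i).2
  · have key : ∀ u ∈ Submodule.span R (Set.range v), (1 : K₁) ⊗ₜ[K] u ∈
        Submodule.span R₁ (Set.range fun i => (1 : K₁) ⊗ₜ[K] v i) := by
      intro u hu
      induction hu using Submodule.span_induction with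
      | mem x hx =>
        obtain ⟨i, rfl⟩ := hx
        exact Submodule.subset_span ⟨i, rfl⟩
      | zero => simp
      | add x y _ _ hx hy => rw [TensorProduct.tmul_add]; exact Submodule.add_mem _ hx hy
      | smul r x _ hx =>
        obtain ⟨r₁, hr₁⟩ := h.le r
        have : (1 : K₁) ⊗ₜ[K] (r • x) = r₁ • ((1 : K₁) ⊗ₜ[K] x) := by
          rw [← algebraMap_smul K r x, one_tmul_smul, ← hr₁, algebraMap_smul]
        rw [this]
        exact Submodule.smul_mem _ _ hx
    rw [Submodule.span_le]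
    rintro _ ⟨u, hu, rfl⟩
    rw [hbv]
    exact key u (by rw [hspanR]; exact hu)

end DensePair

end Fermat.Agent.FF2.Desc
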