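import Mathlib
import Fermat.Prelude.Def_GaloisRep_Flat
import Fermat.Agent.FF2.Desc.DensePair

/-!
# MOONSHOT S19, block (R1)(iii): the dense pair `ℤ_(ℓ) ⊂ ℚ` inside `ℤ_ℓ ⊂ ℚ_ℓ`

`padicDensePair ℓ : DensePair (GaloisRep.ratLocalizedAt ℓ) ℚ ℤ_[ℓ] ℚ_[ℓ] ℓ ℓ`.
-/

set_option autoImplicit false
set_option linter.unusedSectionVars false

namespace Fermat.Agent.FF2.Desc

open GaloisRep

variable (p : ℕ) [hp : Fact p.Prime]

/-- `p` as an element of `ℤ_(p)`. -/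
def ratLocP : ratLocalizedAt p := ⟨(p : ℚ), by
  change ((p : ℚ)).den.Coprime p
  simp⟩

@[simp] theorem coe_ratLocP : ((ratLocP p : ratLocalizedAt p) : ℚ) = p := rfl

theorem mem_ratLocalizedAt_iff {x : ℚ} : x ∈ ratLocalizedAt p ↔ ¬ p ∣ x.den := by
  change x.den.Coprime p ↔ _
  rw [Nat.coprime_comm, Nat.Prime.coprime_iff_not_dvd hp.out]

theorem mem_ratLocalizedAt_of_norm_le_one {x : ℚ} (hx : ‖(x : ℚ_[p])‖ ≤ 1) :
    x ∈ ratLocalizedAt p := by
  rw [mem_ratLocalizedAt_iff]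
  exact Rat.padicValuation_le_one_iff.1
    ((Padic.norm_rat_le_one_iff_padicValuation_le_one p).1 hx)

theorem norm_le_one_of_mem_ratLocalizedAt {x : ℚ} (hx : x ∈ ratLocalizedAt p) :
    ‖(x : ℚ_[p])‖ ≤ 1 :=
  Padic.norm_rat_le_one ((mem_ratLocalizedAt_iff p).1 hx)


theorem exists_pow_mul_mem_ratLocalizedAt (x : ℚ) :
    ∃ (a : ℕ) (r : ratLocalizedAt p), (p : ℚ) ^ a * x = r := by
  have hden : x.den ≠ 0 := x.den_nz
  refine ⟨x.den.factorization p, ⟨(x.num : ℚ) / ((x.den / p ^ x.den.factorization p : ℕ) : ℚ), ?_⟩, ?_⟩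
  · rw [mem_ratLocalizedAt_iff]
    intro hdvd
    have h1 : ((x.num : ℚ) / ((x.den / p ^ x.den.factorization p : ℕ) : ℚ)).den ∣
        x.den / p ^ x.den.factorization p := by
      have := Rat.den_dvd x.num ((x.den / p ^ x.den.factorization p : ℕ) : ℤ)
      rw [Rat.divInt_eq_div, Int.cast_natCast] at this
      exact_mod_cast this
    exact Nat.not_dvd_ordCompl hp.out hden (hdvd.trans h1)
  · have hpow : (p : ℚ) ^ x.den.factorization p ≠ 0 := pow_ne_zero _ (by exact_mod_cast hp.out.ne_zero)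
    have hdiv : p ^ x.den.factorization p ∣ x.den := Nat.ordProj_dvd x.den p
    have hq : ((x.den / p ^ x.den.factorization p : ℕ) : ℚ) =
        (x.den : ℚ) / (p : ℚ) ^ x.den.factorization p := by
      rw [Nat.cast_div hdiv (by exact_mod_cast hpow)]
      push_cast
      rfl
    change (p : ℚ) ^ x.den.factorization p * x =
      (x.num : ℚ) / ((x.den / p ^ x.den.factorization p : ℕ) : ℚ)
    rw [hq]
    have hden' : (x.den : ℚ) ≠ 0 := by exact_mod_cast hden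
    have hx : x = (x.num : ℚ) / (x.den : ℚ) := (Rat.num_div_den x).symm
    generalize x.den.factorization p = a at *
    generalize (x.num : ℚ) = N at *
    generalize (x.den : ℚ) = D at *
    subst hx
    field_simp

theorem exists_pow_mul_norm_le_one (x : ℚ_[p]) : ∃ a : ℕ, ‖(p : ℚ_[p]) ^ a * x‖ ≤ 1 := by
  have hp1 : (1 : ℝ) < p := by exact_mod_cast hp.out.one_lt
  obtain ⟨n, hn⟩ := pow_unbounded_of_one_lt ‖x‖ hp1
  refine ⟨n, ?_⟩
  rw [norm_mul, norm_pow, Padic.norm_p, inv_pow]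
  have hpos : (0 : ℝ) < (p : ℝ) ^ n := pow_pos (by linarith) _
  rw [inv_mul_le_iff₀ hpos, mul_one]
  exact hn.le

/-- **The dense pair `ℤ_(p) ⊂ ℚ`, `ℤ_p ⊂ ℚ_p`.** -/
theorem padicDensePair :
    DensePair (ratLocalizedAt p) ℚ ℤ_[p] ℚ_[p] (ratLocP p) (p : ℤ_[p]) where
  inj₁ := Subtype.coe_injective
  hℓ := by
    rw [show algebraMap (ratLocalizedAt p) ℚ (ratLocP p) = (p : ℚ) from rfl]
    simp
  ℓ_ne := by
    rw [show algebraMap (ratLocalizedAt p) ℚ (ratLocP p) = (p : ℚ) from rfl]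
    exact_mod_cast hp.out.ne_zero
  frac x := by
    obtain ⟨a, r, hr⟩ := exists_pow_mul_mem_ratLocalizedAt p x
    exact ⟨a, r, hr⟩
  frac₁ x := by
    obtain ⟨a, ha⟩ := exists_pow_mul_norm_le_one p x
    exact ⟨a, ⟨_, ha⟩, rfl⟩
  le r := ⟨⟨((r : ℚ) : ℚ_[p]), norm_le_one_of_mem_ratLocalizedAt p r.2⟩, by
    rw [show algebraMap (ratLocalizedAt p) ℚ r = (r : ℚ) from rfl, eq_ratCast]
    rfl⟩
  dense x n := by
    have h := PadicInt.appr_spec n x
    rw [Ideal.mem_span_singleton] at h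
    obtain ⟨y, hy⟩ := h
    refine ⟨⟨(x.appr n : ℚ), ?_⟩, y, ?_⟩
    · change ((x.appr n : ℚ)).den.Coprime p
      simp
    · rw [show algebraMap (ratLocalizedAt p) ℚ ⟨(x.appr n : ℚ), _⟩ = (x.appr n : ℚ) from rfl,
        ← hy]
      simp
  inter x hx := by
    obtain ⟨z, hz⟩ := hx
    have hnorm : ‖(x : ℚ_[p])‖ ≤ 1 := by
      have : ((z : ℤ_[p]) : ℚ_[p]) = (x : ℚ_[p]) := by simpa using hz
      rw [← this]
      exact z.2
    exact ⟨⟨x, mem_ratLocalizedAt_of_norm_le_one p hnorm⟩, rfl⟩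
  rad := by
    rw [IsLocalRing.jacobson_eq_maximalIdeal ⊥ bot_ne_top, PadicInt.maximalIdeal_eq_span_p]
    exact Ideal.mem_span_singleton_self _

end Fermat.Agent.FF2.Desc
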