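import Mathlib
import Fermat.Agent.FF2.Desc.DensePair
import Fermat.Agent.FF2.R2.Delta

/-!
# MOONSHOT S19, block (R1)(iii), part (D3): descent of orders in the function model

`(R ⊂ K) ⊂ (R₁ ⊂ K₁)` a dense pair, `Ω ⊂ Ω₁` fields over `K` resp. `K₁`, `V` finite.
`A ⊂ (V → Ω)` a finite-dimensional `K`-subspace which is an `Ω`-independent `K`-form
(`K`-linearly independent families of `A` stay `Ω`-linearly independent; e.g.
`A = Map_{G_K}(V, Ω)`), `H₁ ⊂ (V → Ω₁)` a finitely generated `R₁`-submodule with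
`K₁ · H₁ = K₁ · A`.

* `exists_basis_fun` : there is a `K`-basis `b` of `A` with `H₁ = ⊕ R₁ (b i)` and
  `⊕ R (b i) = {a ∈ A | a ∈ H₁}`;
* `exists_order_fun` : if moreover `A` is a `K`-subalgebra with `Δ A ⊆ A ⊗ A` and `H₁` is a
  `Δ`-stable `R₁`-subalgebra, then `H := {a ∈ A | a ∈ H₁}` is a `Δ`-stable `R`-subalgebra of
  `V → Ω`, finitely generated as a module, with `K · H = A`.

Mathlib only (plus `FF2/R2/Delta.lean`, vendored byte-identically from origin/helper22).
-/

set_option autoImplicit false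
set_option linter.unusedSectionVars false
set_option linter.style.haveILetI false

open TensorProduct

namespace Fermat.Agent.FF2.Desc

open Fermat.Agent.FF2.R2

section Fun

variable {R K R₁ K₁ Ω Ω₁ : Type*}
  [CommRing R] [Field K] [Algebra R K]
  [CommRing R₁] [Field K₁] [Algebra R₁ K₁] [Algebra K K₁]
  [Field Ω] [Algebra K Ω] [Algebra R Ω] [IsScalarTower R K Ω]
  [Field Ω₁] [Algebra K₁ Ω₁] [Algebra R₁ Ω₁] [IsScalarTower R₁ K₁ Ω₁]
  [Algebra Ω Ω₁] [Algebra K Ω₁] [IsScalarTower K Ω Ω₁] [IsScalarTower K K₁ Ω₁]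
  {ℓ : R} {ℓ₁ : R₁}
  {V : Type*} [Finite V]

variable (K Ω₁ V) in
/-- `a ↦ (v ↦ (a v : Ω₁))`, as a `K`-algebra map `(V → Ω) → (V → Ω₁)`. -/
noncomputable def jAlg : (V → Ω) →ₐ[K] (V → Ω₁) :=
  AlgHom.compLeft (IsScalarTower.toAlgHom K Ω Ω₁) V

@[simp] theorem jAlg_apply (a : V → Ω) (v : V) :
    jAlg K Ω₁ V a v = algebraMap Ω Ω₁ (a v) := rfl

theorem jAlg_eq_comp (a : V → Ω) : jAlg K Ω₁ V a = algebraMap Ω Ω₁ ∘ a := rfl

theorem jAlg_injective : Function.Injective (jAlg (Ω := Ω) K Ω₁ V) := by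
  intro a b hab
  funext v
  exact (algebraMap Ω Ω₁).injective (congrFun hab v)

/-- **(D3a)** a rational basis adapted to the lattice `H₁`. -/
theorem exists_basis_fun (h : DensePair R K R₁ K₁ ℓ ℓ₁) [IsFractionRing R K] [IsDomain R]
    [IsPrincipalIdealRing R] (A : Submodule K (V → Ω)) [FiniteDimensional K A]
    (hA : ∀ (n : ℕ) (b : Fin n → V → Ω), (∀ i, b i ∈ A) → LinearIndependent K b →
      LinearIndependent Ω b)
    (H₁ : Submodule R₁ (V → Ω₁)) (hfg : H₁.FG)
    (hle : ∀ x ∈ H₁, x ∈ Submodule.span K₁ (jAlg K Ω₁ V '' (A : Set (V → Ω))))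
    (hfull : ∀ a ∈ A, jAlg K Ω₁ V a ∈ Submodule.span K₁ (H₁ : Set (V → Ω₁))) :
    ∃ (n : ℕ) (b : Fin n → V → Ω), (∀ i, b i ∈ A) ∧ LinearIndependent Ω b ∧
      Submodule.span K (Set.range b) = A ∧
      Submodule.span R₁ (Set.range fun i => jAlg K Ω₁ V (b i)) = H₁ ∧
      ∀ a : V → Ω, a ∈ Submodule.span R (Set.range b) ↔ a ∈ A ∧ jAlg K Ω₁ V a ∈ H₁ := by
  classical
  letI : Module R (V → Ω) := inferInstance
  let jA : A →ₗ[K] (V → Ω₁) := (jAlg K Ω₁ V).toLinearMap.comp A.subtype
  let φ : K₁ ⊗[K] A →ₗ[K₁] (V → Ω₁) := LinearMap.liftBaseChange K₁ jA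
  have hφ1 : ∀ a : A, φ ((1 : K₁) ⊗ₜ[K] a) = jAlg K Ω₁ V (a : V → Ω) := fun a => by
    simp [φ, jA, LinearMap.liftBaseChange_tmul]
  -- injectivity of `φ`
  have hφinj : Function.Injective φ := by
    let e := Module.finBasis K A
    let e₁ := Algebra.TensorProduct.basis K₁ e
    have hΩ : LinearIndependent Ω (fun i => ((e i : A) : V → Ω)) :=
      hA _ _ (fun i => (e i).2) (e.linearIndependent.map' A.subtype (Submodule.ker_subtype A))
    have hΩ₁ : LinearIndependent Ω₁ (fun i => jAlg K Ω₁ V ((e i : A) : V → Ω)) := by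
      have := (linearIndependent_algebraMap_comp_iff (S := Ω₁)).2 hΩ
      exact this
    have hK₁ : LinearIndependent K₁ (fun i => jAlg K Ω₁ V ((e i : A) : V → Ω)) := by
      refine hΩ₁.restrict_scalars (R := K₁) ?_
      intro x y hxy
      simpa [Algebra.smul_def] using hxy
    rw [← LinearMap.ker_eq_bot, eq_bot_iff]
    intro x hx
    rw [LinearMap.mem_ker] at hx
    have hx' : ∑ i, e₁.repr x i • jAlg K Ω₁ V ((e i : A) : V → Ω) = 0 := by
      rw [← hx]
      conv_rhs => rw [← e₁.sum_repr x]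
      rw [map_sum]
      refine Finset.sum_congr rfl fun i _ => ?_
      rw [map_smul, Algebra.TensorProduct.basis_apply, hφ1]
    have hzero := Fintype.linearIndependent_iff.1 hK₁ _ hx'
    rw [Submodule.mem_bot, ← e₁.sum_repr x]
    exact Finset.sum_eq_zero fun i _ => by rw [hzero i, zero_smul]
  -- the range of `φ`
  have hrange : LinearMap.range φ = Submodule.span K₁ (jAlg K Ω₁ V '' (A : Set (V → Ω))) := by
    apply le_antisymm
    · rintro _ ⟨t, rfl⟩
      induction t using TensorProduct.induction_on with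
      | zero => simp
      | tmul k a =>
        rw [LinearMap.liftBaseChange_tmul]
        exact Submodule.smul_mem _ _ (Submodule.subset_span ⟨a, a.2, rfl⟩)
      | add x y hx hy => rw [map_add]; exact Submodule.add_mem _ hx hy
    · rw [Submodule.span_le]
      rintro _ ⟨a, ha, rfl⟩
      exact ⟨(1 : K₁) ⊗ₜ[K] (⟨a, ha⟩ : A), hφ1 ⟨a, ha⟩⟩
  have hH₁le : H₁ ≤ LinearMap.range (φ.restrictScalars R₁) := by
    intro x hx
    have := hle x hx
    rw [← hrange] at this
    exact this
  -- the lattice upstairs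
  let L : Submodule R₁ (K₁ ⊗[K] A) := H₁.comap (φ.restrictScalars R₁)
  have hLmap : L.map (φ.restrictScalars R₁) = H₁ := Submodule.map_comap_eq_of_le hH₁le
  have hLfg : L.FG :=
    Submodule.fg_of_fg_map_injective (φ.restrictScalars R₁) hφinj (by rw [hLmap]; exact hfg)
  have hLspan : Submodule.span K₁ (L : Set (K₁ ⊗[K] A)) = ⊤ := by
    apply Submodule.map_injective_of_injective hφinj
    rw [Submodule.map_span, Submodule.map_top, hrange]
    have himg : (φ '' (L : Set (K₁ ⊗[K] A))) = (H₁ : Set (V → Ω₁)) := by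
      have := congrArg (fun S : Submodule R₁ (V → Ω₁) => (S : Set (V → Ω₁))) hLmap
      simpa using this
    rw [himg]
    apply le_antisymm
    · rw [Submodule.span_le]
      intro x hx
      exact hle x hx
    · rw [Submodule.span_le]
      rintro _ ⟨a, ha, rfl⟩
      exact hfull a ha
  obtain ⟨n, b, hb1, hb2⟩ := h.exists_basis L hLfg hLspan
  refine ⟨n, fun i => ((b i : A) : V → Ω), fun i => (b i).2, ?_, ?_, ?_, ?_⟩
  · exact hA _ _ (fun i => (b i).2)
      (b.linearIndependent.map' A.subtype (Submodule.ker_subtype A))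
  · have h1 : (Set.range fun i => ((b i : A) : V → Ω)) = A.subtype '' Set.range b := by
      rw [← Set.range_comp]; rfl
    rw [h1, Submodule.span_image, b.span_eq, Submodule.map_top, Submodule.range_subtype]
  · rw [← hLmap, ← hb1, Submodule.map_span]
    congr 1
    rw [← Set.range_comp]
    congr 1
    funext i
    exact (hφ1 (b i)).symm
  · intro a
    have h1 : (Set.range fun i => ((b i : A) : V → Ω)) =
        (A.subtype.restrictScalars R) '' Set.range b := by
      rw [← Set.range_comp]; rfl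
    have hmemL : ∀ a' : A, (1 : K₁) ⊗ₜ[K] a' ∈ L ↔ jAlg K Ω₁ V (a' : V → Ω) ∈ H₁ := fun a' => by
      rw [← hφ1 a']; rfl
    rw [h1, Submodule.span_image, hb2]
    constructor
    · rintro ⟨a', ha', rfl⟩
      exact ⟨a'.2, (hmemL a').1 ((h.mem_ratPoints).1 ha')⟩
    · rintro ⟨haA, haH⟩
      exact ⟨⟨a, haA⟩, (h.mem_ratPoints).2 ((hmemL ⟨a, haA⟩).2 haH), rfl⟩


end Fun

section Prod

/-- Products of linearly independent families of functions are linearly independent. -/
theorem linearIndependent_prod_fun {F X Y ι κ : Type*} [Field F] [Fintype ι] [Fintype κ]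
    (f : ι → X → F) (g : κ → Y → F) (hf : LinearIndependent F f) (hg : LinearIndependent F g) :
    LinearIndependent F (fun ik : ι × κ => fun p : X × Y => f ik.1 p.1 * g ik.2 p.2) := by
  classical
  rw [Fintype.linearIndependent_iff]
  intro c hc
  have h1 : ∀ y : Y, ∀ i : ι, ∑ k, c (i, k) * g k y = 0 := by
    intro y
    apply Fintype.linearIndependent_iff.1 hf
    funext x
    have := congrFun hc (x, y)
    simp only [Finset.sum_apply, Pi.smul_apply, smul_eq_mul, Pi.zero_apply,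
      Fintype.sum_prod_type] at this ⊢
    rw [← this]
    refine Finset.sum_congr rfl fun i _ => ?_
    rw [Finset.sum_mul]
    refine Finset.sum_congr rfl fun k _ => ?_
    ring
  rintro ⟨i, k⟩
  have h2 : ∑ k, c (i, k) • g k = 0 := by
    funext y
    simpa using h1 y i
  exact Fintype.linearIndependent_iff.1 hg (fun k => c (i, k)) h2 k

variable {W B : Type*} [CommRing W] [CommRing B] [Algebra W B] {V : Type*} [AddCommGroup V]

open Fermat.Agent.FF2.R2 in
/-- If `H` is spanned by `w`, then `prodAlg H` is spanned by the products `w i ⊗ w k`. -/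
theorem prodAlg_toSubmodule_of_span (H : Subalgebra W (V → B)) {ι : Type*} [Fintype ι]
    (w : ι → V → B) (hw : Subalgebra.toSubmodule H = Submodule.span W (Set.range w)) :
    Subalgebra.toSubmodule (prodAlg H) = Submodule.span W
      (Set.range fun ik : ι × ι => fun p : V × V => w ik.1 p.1 * w ik.2 p.2) := by
  classical
  have hwH : ∀ i, w i ∈ H := fun i => by
    have : w i ∈ Subalgebra.toSubmodule H := by
      rw [hw]; exact Submodule.subset_span ⟨i, rfl⟩
    exact this
  rw [prodAlg_toSubmodule]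
  apply le_antisymm
  · rw [Submodule.span_le]
    rintro _ ⟨h₁, hh₁, h₂, hh₂, rfl⟩
    have e1 : h₁ ∈ Submodule.span W (Set.range w) := by rw [← hw]; exact hh₁
    have e2 : h₂ ∈ Submodule.span W (Set.range w) := by rw [← hw]; exact hh₂
    obtain ⟨c, rfl⟩ := (Submodule.mem_span_range_iff_exists_fun W).1 e1
    obtain ⟨d, rfl⟩ := (Submodule.mem_span_range_iff_exists_fun W).1 e2
    have : (fun p : V × V => (∑ i, c i • w i) p.1 * (∑ k, d k • w k) p.2) =
        ∑ ik : ι × ι, (c ik.1 * d ik.2) • (fun p : V × V => w ik.1 p.1 * w ik.2 p.2) := by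
      funext p
      simp only [Finset.sum_apply, Pi.smul_apply, Fintype.sum_prod_type, Finset.sum_mul_sum]
      refine Finset.sum_congr rfl fun i _ => Finset.sum_congr rfl fun k _ => ?_
      rw [smul_mul_smul_comm]
    rw [this]
    exact Submodule.sum_mem _ fun ik _ =>
      Submodule.smul_mem _ _ (Submodule.subset_span ⟨ik, rfl⟩)
  · rw [Submodule.span_le]
    rintro _ ⟨ik, rfl⟩
    exact Submodule.subset_span ⟨w ik.1, hwH ik.1, w ik.2, hwH ik.2, rfl⟩

end Prod

section Order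

variable {R K R₁ K₁ Ω Ω₁ : Type*}
  [CommRing R] [Field K] [Algebra R K]
  [CommRing R₁] [Field K₁] [Algebra R₁ K₁] [Algebra K K₁]
  [Field Ω] [Algebra K Ω] [Algebra R Ω] [IsScalarTower R K Ω]
  [Field Ω₁] [Algebra K₁ Ω₁] [Algebra R₁ Ω₁] [IsScalarTower R₁ K₁ Ω₁]
  [Algebra Ω Ω₁] [Algebra K Ω₁] [IsScalarTower K Ω Ω₁] [IsScalarTower K K₁ Ω₁]
  {ℓ : R} {ℓ₁ : R₁}
  {V : Type*} [Finite V] [AddCommGroup V]

/-- **(D3) Descent of `Δ`-stable orders along a dense pair, function model.** -/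
theorem exists_order_fun (h : DensePair R K R₁ K₁ ℓ ℓ₁) [IsFractionRing R K] [IsDomain R]
    [IsPrincipalIdealRing R] (A : Subalgebra K (V → Ω)) [FiniteDimensional K A]
    (hA : ∀ (n : ℕ) (b : Fin n → V → Ω), (∀ i, b i ∈ A) → LinearIndependent K b →
      LinearIndependent Ω b)
    (hΔA : IsDeltaStable A)
    (H₁ : Subalgebra R₁ (V → Ω₁)) (hfg : (Subalgebra.toSubmodule H₁).FG)
    (hle : ∀ x ∈ H₁, x ∈ Submodule.span K₁ (jAlg K Ω₁ V '' (A : Set (V → Ω))))
    (hfull : ∀ a ∈ A, jAlg K Ω₁ V a ∈ Submodule.span K₁ (H₁ : Set (V → Ω₁)))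
    (hΔ₁ : IsDeltaStable H₁) :
    ∃ H : Subalgebra R (V → Ω), (∀ a, a ∈ H ↔ a ∈ A ∧ jAlg K Ω₁ V a ∈ H₁) ∧
      (Subalgebra.toSubmodule H).FG ∧
      Submodule.span K (H : Set (V → Ω)) = Subalgebra.toSubmodule A ∧ IsDeltaStable H := by
  classical
  haveI : FiniteDimensional K (Subalgebra.toSubmodule A) := ‹FiniteDimensional K A›
  obtain ⟨n, b, hbA, hbΩ, hspanK, hspanR₁, hiff⟩ :=
    exists_basis_fun h (Subalgebra.toSubmodule A) hA (Subalgebra.toSubmodule H₁) hfg
      (fun x hx => hle x hx) (fun a ha => hfull a ha)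
  -- the tower identity `R → Ω → Ω₁` versus `R → R₁ → Ω₁`
  have htower : ∀ (r : R) (r₁ : R₁),
      algebraMap R₁ K₁ r₁ = algebraMap K K₁ (algebraMap R K r) →
      algebraMap Ω Ω₁ (algebraMap R Ω r) = algebraMap R₁ Ω₁ r₁ := by
    intro r r₁ hr
    rw [IsScalarTower.algebraMap_apply R K Ω, ← IsScalarTower.algebraMap_apply K Ω Ω₁,
      IsScalarTower.algebraMap_apply K K₁ Ω₁, ← hr, ← IsScalarTower.algebraMap_apply R₁ K₁ Ω₁]
  let H : Subalgebra R (V → Ω) :=
    { carrier := {a | a ∈ A ∧ jAlg K Ω₁ V a ∈ H₁}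
      mul_mem' := fun {a a'} ha ha' =>
        ⟨A.mul_mem ha.1 ha'.1, by rw [map_mul]; exact H₁.mul_mem ha.2 ha'.2⟩
      add_mem' := fun {a a'} ha ha' =>
        ⟨A.add_mem ha.1 ha'.1, by rw [map_add]; exact H₁.add_mem ha.2 ha'.2⟩
      algebraMap_mem' := fun r => by
        refine ⟨?_, ?_⟩
        · rw [IsScalarTower.algebraMap_apply R K (V → Ω)]
          exact A.algebraMap_mem _
        · obtain ⟨r₁, hr₁⟩ := h.le r
          have : jAlg K Ω₁ V (algebraMap R (V → Ω) r) = algebraMap R₁ (V → Ω₁) r₁ := by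
            funext v
            exact htower r r₁ hr₁
          rw [this]
          exact H₁.algebraMap_mem _ }
  have hmem : ∀ a, a ∈ H ↔ a ∈ A ∧ jAlg K Ω₁ V a ∈ H₁ := fun a => Iff.rfl
  have hHspan : Subalgebra.toSubmodule H = Submodule.span R (Set.range b) :=
    Submodule.ext fun a => (hiff a).symm
  have hbH : ∀ i, b i ∈ H := fun i => (hiff (b i)).1 (Submodule.subset_span ⟨i, rfl⟩)
  refine ⟨H, hmem, ?_, ?_, ?_⟩
  · rw [hHspan]
    exact Submodule.fg_span (Set.finite_range b)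
  · have : (H : Set (V → Ω)) = (Submodule.span R (Set.range b) : Set (V → Ω)) := by
      rw [← hHspan]; rfl
    rw [this, Submodule.span_span_of_tower, hspanK]
  · -- `Δ`-stability
    intro a ha
    obtain ⟨haA, haH₁⟩ := ha
    have h1 : deltaHom K Ω V a ∈ Subalgebra.toSubmodule (prodAlg A) := hΔA a haA
    rw [prodAlg_toSubmodule_of_span A b hspanK.symm] at h1
    obtain ⟨c, hc⟩ := (Submodule.mem_span_range_iff_exists_fun K).1 h1
    have h2 : deltaHom R₁ Ω₁ V (jAlg K Ω₁ V a) ∈ Subalgebra.toSubmodule (prodAlg H₁) :=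
      hΔ₁ _ haH₁
    rw [prodAlg_toSubmodule_of_span H₁ (fun i => jAlg K Ω₁ V (b i)) hspanR₁.symm] at h2
    obtain ⟨d, hd⟩ := (Submodule.mem_span_range_iff_exists_fun R₁).1 h2
    have hΩ₁ : LinearIndependent Ω₁ (fun i => jAlg K Ω₁ V (b i)) := by
      have := (linearIndependent_algebraMap_comp_iff (S := Ω₁)).2 hbΩ
      exact this
    have hLI := linearIndependent_prod_fun (X := V) (Y := V) _ _ hΩ₁ hΩ₁
    -- compare the two expansions
    have hzero : ∑ ik : Fin n × Fin n, (algebraMap K Ω₁ (c ik) - algebraMap R₁ Ω₁ (d ik)) •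
        (fun p : V × V => jAlg K Ω₁ V (b ik.1) p.1 * jAlg K Ω₁ V (b ik.2) p.2) = 0 := by
      funext p
      have e1 : ∑ ik : Fin n × Fin n, algebraMap K Ω₁ (c ik) *
          (algebraMap Ω Ω₁ (b ik.1 p.1) * algebraMap Ω Ω₁ (b ik.2 p.2)) =
          algebraMap Ω Ω₁ (a (p.1 + p.2)) := by
        have := congrArg (algebraMap Ω Ω₁) (congrFun hc p)
        simp only [Finset.sum_apply, Pi.smul_apply, deltaHom_apply, map_sum] at this
        rw [← this]
        refine Finset.sum_congr rfl fun ik _ => ?_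
        rw [Algebra.smul_def, map_mul, map_mul, ← IsScalarTower.algebraMap_apply]
      have e2 : ∑ ik : Fin n × Fin n, algebraMap R₁ Ω₁ (d ik) *
          (algebraMap Ω Ω₁ (b ik.1 p.1) * algebraMap Ω Ω₁ (b ik.2 p.2)) =
          algebraMap Ω Ω₁ (a (p.1 + p.2)) := by
        have := congrFun hd p
        simp only [Finset.sum_apply, Pi.smul_apply, deltaHom_apply, jAlg_apply] at this
        rw [← this]
        refine Finset.sum_congr rfl fun ik _ => ?_
        rw [Algebra.smul_def]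
      simp only [Finset.sum_apply, Pi.smul_apply, smul_eq_mul, jAlg_apply, sub_mul,
        Finset.sum_sub_distrib, Pi.zero_apply]
      rw [e1, e2, sub_self]
    have hcoef := Fintype.linearIndependent_iff.1 hLI _ hzero
    have hr : ∀ ik, ∃ r : R, algebraMap R K r = c ik := by
      intro ik
      have e : algebraMap K Ω₁ (c ik) = algebraMap R₁ Ω₁ (d ik) := sub_eq_zero.1 (hcoef ik)
      rw [IsScalarTower.algebraMap_apply K K₁ Ω₁, IsScalarTower.algebraMap_apply R₁ K₁ Ω₁] at e
      have e' := (algebraMap K₁ Ω₁).injective e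
      exact h.inter (c ik) ⟨d ik, e'.symm⟩
    choose r hr using hr
    have hfinal : deltaHom R Ω V a =
        ∑ ik : Fin n × Fin n, r ik • (fun p : V × V => b ik.1 p.1 * b ik.2 p.2) := by
      have : deltaHom R Ω V a = deltaHom K Ω V a := rfl
      rw [this, ← hc]
      refine Finset.sum_congr rfl fun ik _ => ?_
      rw [← hr ik, algebraMap_smul]
    rw [hfinal]
    exact Subalgebra.sum_mem _ fun ik _ =>
      Subalgebra.smul_mem _ (mul_mem_prodAlg (hbH ik.1) (hbH ik.2)) _

end Order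


end Fermat.Agent.FF2.Desc
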