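import Mathlib
import Fermat.Agent.FF2.Desc.FunDescent
import Fermat.Agent.FF2.R0.Prod
import Fermat.Agent.FF2.ChartS.Descent
import Fermat.Agent.FF2.R2.Separate

/-!
# MOONSHOT S19, block (R1)(iii), part (D4): from a local order to a global order

`Ω / K` Galois, `V` a finite continuous `Gal(Ω/K)`-module, `A = galFun K Ω V` the `K`-algebra of
Galois-equivariant functions `V → Ω` (helper20's (R0)).  `(R ⊂ K) ⊂ (R₁ ⊂ K₁)` a dense pair with
`K₁ ⊂ Ω` containing the fixed field of a subgroup `D` of `Gal(Ω/K)` (the decomposition group).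

`exists_order_of_local` : a finitely generated, `D`-equivariant, point-separating, `Δ`-stable
`R₁`-subalgebra `H₁` of `V → Ω` produces a finitely generated, `Gal(Ω/K)`-equivariant,
point-separating, `Δ`-stable `R`-subalgebra `H = H₁ ∩ A` of `V → Ω`: the four hypotheses of the
S19 sink (helper5's `S19_of_isDeltaStable`).

Everything happens inside `Ω` (variant (β): `Ω₁ = Ω`).

Vendored byte-identically: helper20's `FF2/R0/{GalFun,Model,Prod}`, helper7's
`FF2/ChartS/Descent`, helper22's `FF2/R2/{Delta,Separate}`.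
-/

set_option autoImplicit false
set_option linter.unusedSectionVars false
set_option linter.style.haveILetI false

open TensorProduct

namespace Fermat.Agent.FF2.Desc

open Fermat.Agent.FF2.R0 Fermat.Agent.FF2.R2

section GalFun

variable {K Ω : Type*} [Field K] [Field Ω] [Algebra K Ω] [IsGalois K Ω]
  {V : Type*} [AddCommGroup V] [Finite V] [DistribMulAction (Ω ≃ₐ[K] Ω) V]

/-- (R0.2) in the shape of the hypothesis `hA` of `exists_order_fun`. -/
theorem galFun_linearIndependent_fun (n : ℕ) (b : Fin n → V → Ω)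
    (hb : ∀ i, b i ∈ galFun K Ω V) (hli : LinearIndependent K b) : LinearIndependent Ω b := by
  have h1 : LinearIndependent K (fun i => (⟨b i, hb i⟩ : galFun K Ω V)) := by
    apply LinearIndependent.of_comp (galFun K Ω V).val.toLinearMap
    exact hli
  exact galFun_linearIndependent _ h1

/-- The image of the product map lies in `prodAlg`. -/
theorem galFunProd_mem_prodAlg (t : galFun K Ω V ⊗[K] galFun K Ω V) :
    ((galFunProd K Ω V V t : galFun K Ω (V × V)) : V × V → Ω) ∈ prodAlg (galFun K Ω V) := by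
  induction t using TensorProduct.induction_on with
  | zero =>
    rw [map_zero]
    exact Subalgebra.zero_mem _
  | tmul f g =>
    have : ((galFunProd K Ω V V (f ⊗ₜ g) : galFun K Ω (V × V)) : V × V → Ω) =
        fun p => (f : V → Ω) p.1 * (g : V → Ω) p.2 := funext fun p => galFunProd_tmul f g p
    rw [this]
    exact mul_mem_prodAlg f.2 g.2
  | add x y hx hy =>
    rw [map_add]
    exact Subalgebra.add_mem _ hx hy

/-- (R0.3) in helper22's dialect: the algebra of equivariant functions is `Δ`-stable. -/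
theorem galFun_isDeltaStable [IsContAction K Ω V] : IsDeltaStable (galFun K Ω V) := by
  intro a ha
  have hmem : deltaHom K Ω V a ∈ galFun K Ω (V × V) := by
    intro σ p
    show a ((σ • p).1 + (σ • p).2) = σ (a (p.1 + p.2))
    rw [Prod.smul_fst, Prod.smul_snd, ← smul_add]
    exact ha σ _
  obtain ⟨t, ht⟩ := (galFunProd_bijective (K := K) (Ω := Ω) (V := V) (V' := V)).2
    ⟨deltaHom K Ω V a, hmem⟩
  have h1 := galFunProd_mem_prodAlg t
  rw [ht] at h1
  exact h1

end GalFun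

section Local

variable {K Ω : Type*} [Field K] [Field Ω] [Algebra K Ω] [IsGalois K Ω]
  {V : Type*} [AddCommGroup V] [Finite V] [DistribMulAction (Ω ≃ₐ[K] Ω) V]
  {R : Type*} [CommRing R] [Algebra R K] [Algebra R Ω] [IsScalarTower R K Ω]
  {R₁ K₁ : Type*} [CommRing R₁] [Field K₁] [Algebra R₁ K₁] [Algebra K K₁] [Algebra K₁ Ω]
  [Algebra R₁ Ω] [IsScalarTower R₁ K₁ Ω] [IsScalarTower K K₁ Ω]
  {ℓ : R} {ℓ₁ : R₁}

omit [IsGalois K Ω] [Finite V] [AddCommGroup V] [DistribMulAction (Ω ≃ₐ[K] Ω) V] in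
theorem jAlg_self (a : V → Ω) : jAlg K Ω V a = a := rfl

/-- The `σ`-semilinear action of `σ ∈ D` on functions, `f ↦ σ ∘ f ∘ σ⁻¹`. -/
def conjFun (D : Subgroup (Ω ≃ₐ[K] Ω)) (σ : D) : (V → Ω) →+ (V → Ω) where
  toFun f := fun v => (σ : Ω ≃ₐ[K] Ω) (f ((σ : Ω ≃ₐ[K] Ω)⁻¹ • v))
  map_zero' := by
    funext v
    simp
  map_add' f g := by
    funext v
    simp

omit [IsGalois K Ω] [Finite V] in
theorem conjFun_smul (D : Subgroup (Ω ≃ₐ[K] Ω)) (σ : D) (ω : Ω) (f : V → Ω) :
    conjFun D σ (ω • f) = (σ • ω) • conjFun D σ f := by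
  funext v
  show (σ : Ω ≃ₐ[K] Ω) (ω * f ((σ : Ω ≃ₐ[K] Ω)⁻¹ • v)) =
    (σ : Ω ≃ₐ[K] Ω) ω * (σ : Ω ≃ₐ[K] Ω) (f ((σ : Ω ≃ₐ[K] Ω)⁻¹ • v))
  rw [map_mul]

omit [IsGalois K Ω] [Finite V] in
theorem conjFun_eq_self (D : Subgroup (Ω ≃ₐ[K] Ω)) {f : V → Ω}
    (hf : ∀ σ ∈ D, ∀ v, f (σ • v) = σ (f v)) (σ : D) : conjFun D σ f = f := by
  funext v
  show (σ : Ω ≃ₐ[K] Ω) (f ((σ : Ω ≃ₐ[K] Ω)⁻¹ • v)) = f v
  rw [hf _ (D.inv_mem σ.2) v, ← AlgEquiv.mul_apply, mul_inv_cancel, AlgEquiv.one_apply]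

/-- **(D4)** From a local order (over `R₁`, equivariant for the subgroup `D` whose fixed field
lies in `K₁`) to a global order (over `R`, equivariant for the whole Galois group). -/
theorem exists_order_of_local [IsFractionRing R K] [IsDomain R] [IsPrincipalIdealRing R]
    [IsContAction K Ω V] (h : DensePair R K R₁ K₁ ℓ ℓ₁)
    (D : Subgroup (Ω ≃ₐ[K] Ω))
    (hD : ∀ z : Ω, (∀ σ ∈ D, σ z = z) → z ∈ Set.range (algebraMap K₁ Ω))
    (H₁ : Subalgebra R₁ (V → Ω)) (hfg : (Subalgebra.toSubmodule H₁).FG)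
    (hequiv₁ : ∀ f ∈ H₁, ∀ σ ∈ D, ∀ v, f (σ • v) = σ (f v))
    (hsep₁ : ∀ v w : V, v ≠ w → ∃ f ∈ H₁, f v ≠ f w)
    (hΔ₁ : IsDeltaStable H₁) :
    ∃ H : Subalgebra R (V → Ω), (Subalgebra.toSubmodule H).FG ∧
      (∀ f ∈ H, ∀ (σ : Ω ≃ₐ[K] Ω) (v : V), f (σ • v) = σ (f v)) ∧
      (∀ v w : V, (∀ f ∈ H, f v = f w) → v = w) ∧ IsDeltaStable H ∧
      ∀ f, f ∈ H ↔ f ∈ galFun K Ω V ∧ f ∈ H₁ := by
  classical
  have hfixK₁ : ∀ x : Ω, (∀ σ : D, σ • x = x) → x ∈ (algebraMap K₁ Ω).range :=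
    fun x hx => hD x (fun σ hσ => hx ⟨σ, hσ⟩)
  have hAfix : ∀ a ∈ galFun K Ω V, ∀ σ : D, conjFun D σ a = a := fun a ha σ =>
    conjFun_eq_self D (fun τ _ v => ha τ v) σ
  have hH₁fix : ∀ f ∈ H₁, ∀ σ : D, conjFun D σ f = f := fun f hf σ =>
    conjFun_eq_self D (hequiv₁ f hf) σ
  have hAtop : Submodule.span Ω ((galFun K Ω V : Subalgebra K (V → Ω)) : Set (V → Ω)) = ⊤ := by
    have := galFun_span_eq_top (K := K) (Ω := Ω) (V := V)
    rw [← this]
    congr 1
    ext f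
    simp
  have hH₁top : Submodule.span Ω (H₁ : Set (V → Ω)) = ⊤ := span_eq_top_of_separates H₁ hsep₁
  have hle : ∀ x ∈ H₁, x ∈ Submodule.span K₁
      (jAlg K Ω V '' ((galFun K Ω V : Subalgebra K (V → Ω)) : Set (V → Ω))) := by
    intro x hx
    have himg : jAlg K Ω V '' ((galFun K Ω V : Subalgebra K (V → Ω)) : Set (V → Ω)) =
        ((galFun K Ω V : Subalgebra K (V → Ω)) : Set (V → Ω)) := by
      ext f
      constructor
      · rintro ⟨a, ha, rfl⟩
        rw [jAlg_self]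
        exact ha
      · intro hf
        exact ⟨f, hf, jAlg_self f⟩
    rw [himg]
    exact Fermat.Agent.FF2.ChartS.mem_span_of_fixed hfixK₁ (conjFun D) (conjFun_smul D)
      _ (fun s hs σ => hAfix s hs σ) (by rw [hAtop]; exact Submodule.mem_top) (hH₁fix x hx)
  have hfull : ∀ a ∈ galFun K Ω V, jAlg K Ω V a ∈ Submodule.span K₁ (H₁ : Set (V → Ω)) := by
    intro a ha
    rw [jAlg_self]
    exact Fermat.Agent.FF2.ChartS.mem_span_of_fixed hfixK₁ (conjFun D) (conjFun_smul D)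
      _ (fun s hs σ => hH₁fix s hs σ) (by rw [hH₁top]; exact Submodule.mem_top) (hAfix a ha)
  obtain ⟨H, hmem, hHfg, hHspan, hHΔ⟩ := exists_order_fun h (galFun K Ω V)
    galFun_linearIndependent_fun galFun_isDeltaStable H₁ hfg hle hfull hΔ₁
  refine ⟨H, hHfg, fun f hf σ v => ((hmem f).1 hf).1 σ v, ?_, hHΔ, fun f => ?_⟩
  · intro v w hvw
    by_contra hne
    obtain ⟨a, ha, hav⟩ := galFun_separates (K := K) (Ω := Ω) v w hne
    apply hav
    have ha' : a ∈ Submodule.span K (H : Set (V → Ω)) := by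
      rw [hHspan]
      exact ha
    refine Submodule.span_induction (p := fun f _ => f v = f w) ?_ ?_ ?_ ?_ ha'
    · intro f hf
      exact hvw f hf
    · rfl
    · intro f g _ _ hf hg
      rw [Pi.add_apply, Pi.add_apply, hf, hg]
    · intro c f _ hf
      rw [Pi.smul_apply, Pi.smul_apply, hf]
  · rw [hmem f, jAlg_self]

end Local

end Fermat.Agent.FF2.Desc
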