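import Mathlib
import Fermat.Agent.FF2.Desc.GalOrder
import Fermat.Agent.FF2.Desc.PadicPair
import Fermat.Agent.FF2.Order.S19SinkDelta
import Fermat.Agent.Res.OpenStab

/-!
# MOONSHOT S19, block (G6): the frozen S19 from a LOCAL order

`S19_of_local_order` : the frozen statement S19 follows from

* the finiteness of `J₀(p)[ℓ^k]` (block (G0)),
* a dense pair `(ℤ_(ℓ) ⊂ ℚ) ⊂ (R₁ ⊂ K₁)` with `K₁ ⊂ ℚ̄` containing the fixed field of a subgroup
  `D` of `G_ℚ` (variant (β): `R₁ = decompRing P`, `D = D_P`; block (BASE-1)),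
* an `R₁`-subalgebra `H₁` of `(J₀(p)[ℓ^k] → ℚ̄)`, finitely generated as a module, `D`-equivariant,
  point-separating and `Δ`-stable (blocks (G1)–(G5), (R2), (D1)).

Composition of `exists_order_of_local` (D4) with helper5's sink `S19_of_isDeltaStable`
(vendored byte-identically) and main's `Res.exists_finite_fixing_JZero`.
-/

set_option autoImplicit false
set_option linter.unusedSectionVars false
set_option linter.style.haveILetI false

namespace Fermat.Agent.FF2.Desc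

open ModularCurve GaloisRep Fermat.Agent.FF2.Order Fermat.Agent.FF2.R0 Fermat.Agent.FF2.R2

local notation "Qb" => AlgebraicClosure ℚ
local notation "GQ" => (AlgebraicClosure ℚ ≃ₐ[ℚ] AlgebraicClosure ℚ)

section Base

variable (ℓ : ℕ) [Fact ℓ.Prime]

/-- `ℚ` is the fraction field of `ℤ_(ℓ)`. -/
instance isFractionRing_ratLoc : IsFractionRing (ratLocalizedAt ℓ) ℚ :=
  IsFractionRing.isFractionRing_of_isDomain_of_isLocalization
    (Ideal.span {(ℓ : ℤ)}).primeCompl (ratLocalizedAt ℓ) ℚ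

end Base

section Act

variable (p : ℕ) [NeZero p] (ℓ : ℕ) [Fact ℓ.Prime] (k : ℕ)

/-- The action of `G_ℚ` on `J₀(p)[ℓ^k]` (helper5's `torsAct`) as a `DistribMulAction`. -/
@[reducible] noncomputable def torsDistribMulAction :
    DistribMulAction GQ ↥(Submodule.torsionBy ℤ (JZero p) ((ℓ : ℤ) ^ k)) where
  smul σ v := torsAct p ℓ k σ v
  one_smul v := Subtype.ext (by
    show ((torsAct p ℓ k 1 v : ↥(Submodule.torsionBy ℤ (JZero p) ((ℓ : ℤ) ^ k))) : JZero p) = v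
    rw [coe_torsAct, one_smul])
  mul_smul σ τ v := Subtype.ext (by
    show ((torsAct p ℓ k (σ * τ) v : ↥(Submodule.torsionBy ℤ (JZero p) ((ℓ : ℤ) ^ k))) : JZero p) =
      ((torsAct p ℓ k σ (torsAct p ℓ k τ v) :
        ↥(Submodule.torsionBy ℤ (JZero p) ((ℓ : ℤ) ^ k))) : JZero p)
    rw [coe_torsAct, coe_torsAct, coe_torsAct, mul_smul])
  smul_zero σ := torsAct_zero p ℓ k σ
  smul_add σ v w := torsAct_add p ℓ k σ v w

theorem torsDistribMulAction_smul (σ : GQ)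
    (v : ↥(Submodule.torsionBy ℤ (JZero p) ((ℓ : ℤ) ^ k))) :
    letI := torsDistribMulAction p ℓ k
    σ • v = torsAct p ℓ k σ v := rfl

/-- The action of `G_ℚ` on `J₀(p)[ℓ^k]` is continuous (main's `Res/OpenStab`). -/
theorem isContAction_tors :
    letI := torsDistribMulAction p ℓ k
    IsContAction ℚ Qb ↥(Submodule.torsionBy ℤ (JZero p) ((ℓ : ℤ) ^ k)) := by
  letI := torsDistribMulAction p ℓ k
  constructor
  intro v
  obtain ⟨L, hL, h⟩ := Fermat.Agent.Res.exists_finite_fixing_JZero p (v : JZero p)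
  refine ⟨L, hL, fun σ hσ => Subtype.ext ?_⟩
  show ((torsAct p ℓ k σ v : ↥(Submodule.torsionBy ℤ (JZero p) ((ℓ : ℤ) ^ k))) : JZero p) = v
  rw [coe_torsAct]
  exact h σ (fun a ha => (IntermediateField.mem_fixingSubgroup_iff L σ).mp hσ a ha)

end Act

section Sink

variable (p : ℕ) [NeZero p] (ℓ : ℕ) [Fact ℓ.Prime] (k : ℕ)

/-- **(G6) The frozen S19 from a local order.** -/
theorem S19_of_local_order
    (hfinV : Finite ↥(Submodule.torsionBy ℤ (JZero p) ((ℓ : ℤ) ^ k)))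
    {R₁ K₁ : Type*} [CommRing R₁] [Field K₁] [Algebra R₁ K₁] [Algebra ℚ K₁] [Algebra K₁ Qb]
    [Algebra R₁ Qb] [IsScalarTower R₁ K₁ Qb] [IsScalarTower ℚ K₁ Qb] {ℓ₁ : R₁}
    (h : DensePair (ratLocalizedAt ℓ) ℚ R₁ K₁ (ratLocP ℓ) ℓ₁)
    (D : Subgroup GQ)
    (hD : ∀ z : Qb, (∀ σ ∈ D, σ z = z) → z ∈ Set.range (algebraMap K₁ Qb))
    (H₁ : Subalgebra R₁ (↥(Submodule.torsionBy ℤ (JZero p) ((ℓ : ℤ) ^ k)) → Qb))
    (hfg : (Subalgebra.toSubmodule H₁).FG)
    (hequiv₁ : ∀ f ∈ H₁, ∀ σ ∈ D, ∀ v, f (torsAct p ℓ k σ v) = σ (f v))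
    (hsep₁ : ∀ v w, v ≠ w → ∃ f ∈ H₁, f v ≠ f w)
    (hΔ₁ : IsDeltaStable H₁) :
    ∃ (H : Type) (_ : CommRing H) (_ : HopfAlgebra (GaloisRep.ratLocalizedAt ℓ) H),
      Module.Finite (GaloisRep.ratLocalizedAt ℓ) H ∧ Module.Flat (GaloisRep.ratLocalizedAt ℓ) H ∧
      Coalgebra.IsCocomm (GaloisRep.ratLocalizedAt ℓ) H ∧
      ∃ e : WithConv (H →ₐ[GaloisRep.ratLocalizedAt ℓ] AlgebraicClosure ℚ) ≃
          ↥(Submodule.torsionBy ℤ (JZero p) ((ℓ : ℤ) ^ k)),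
        (∀ f g, e (f * g) = e f + e g) ∧
        ∀ (σ : AlgebraicClosure ℚ ≃ₐ[ℚ] AlgebraicClosure ℚ)
          (f g : WithConv (H →ₐ[GaloisRep.ratLocalizedAt ℓ] AlgebraicClosure ℚ)),
          (∀ h : H, g h = σ (f h)) → ((e g : JZero p)) = σ • (e f : JZero p) := by
  haveI := hfinV
  letI := torsDistribMulAction p ℓ k
  haveI := isContAction_tors p ℓ k
  haveI : IsAlgClosure ℚ Qb := AlgebraicClosure.instIsAlgClosure ℚ
  haveI : IsGalois ℚ Qb := inferInstance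
  obtain ⟨H, hHfg, hHequiv, hHsep, hHΔ, -⟩ :=
    exists_order_of_local (K := ℚ) (Ω := Qb) h D hD H₁ hfg
      (fun f hf σ hσ v => hequiv₁ f hf σ hσ v) hsep₁ hΔ₁
  exact S19_of_isDeltaStable p ℓ k hfinV H hHfg (fun f hf σ v => hHequiv f hf σ v) hHsep hHΔ

end Sink

end Fermat.Agent.FF2.Desc
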