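import Mathlib
import Fermat.Agent.FF2.Desc.S19Local
import Fermat.Agent.FF2.R1D.ConjDescentSub

/-!
# MOONSHOT S19, blocks (D1) ∘ (D4) ∘ sink: the frozen S19 from a LEVEL-`n` order

`S19_of_level_order` : the frozen statement S19 follows from

* the finiteness of `J₀(p)[ℓ^k]` (block (G0)),
* subrings `W0 ≤ W` of `ℚ̄` (`W0 = Λ_1 = decompRing P`, `W = Λ_n`), a subgroup `D` of `G_ℚ`
  (`D = D_P`) and a normal subgroup `G'` of finite index of `D` (`G' = Γ_n`) satisfying the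
  hypotheses of helper12's finite Galois descent `exists_fixed_deltaStable_of_theta` (block (D1)),
* a dense pair `(ℤ_(ℓ) ⊂ ℚ) ⊂ (W0 ⊂ K₁)` with `K₁ ⊂ ℚ̄` containing the fixed field of `D`
  (block (BASE-1)),
* ONE `W`-subalgebra `H` of `(J₀(p)[ℓ^k] → ℚ̄)`, finitely generated as a module,
  `G'`-equivariant, point-separating and `Δ`-stable (blocks (G1)–(G5), (R2)).

helper12's `FF2/R1D/{QuotDescent,ConjAction,ConjDelta,ConjDescent,GaloisBasisUnit,ConjDescentSub}`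
are vendored byte-identically (origin/helper12 @822d0504).
-/

set_option autoImplicit false
set_option linter.unusedSectionVars false
set_option linter.style.haveILetI false

namespace Fermat.Agent.FF2.Desc

open ModularCurve GaloisRep Fermat.Agent.FF2.Order Fermat.Agent.FF2.R0 Fermat.Agent.FF2.R2
  Fermat.Agent.FF2.R1D

local notation "Qb" => AlgebraicClosure ℚ
local notation "GQ" => (AlgebraicClosure ℚ ≃ₐ[ℚ] AlgebraicClosure ℚ)

variable (p : ℕ) [NeZero p] (ℓ : ℕ) [Fact ℓ.Prime] (k : ℕ)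

/-- **The frozen S19 from a level-`n` order** (`(D1) ∘ (D4) ∘` sink). -/
theorem S19_of_level_order
    (hfinV : Finite ↥(Submodule.torsionBy ℤ (JZero p) ((ℓ : ℤ) ^ k)))
    (D : Subgroup GQ) (G' : Subgroup ↥D) [G'.Normal] [Fintype (↥D ⧸ G')]
    (W W0 : Subring Qb) (hW0W : W0 ≤ W)
    (hWstab : ∀ σ : ↥D, ∀ w ∈ W, σ • w ∈ W)
    (hG'W : ∀ τ ∈ G', ∀ w ∈ W, τ • w = w)
    (hW0fix : ∀ σ : ↥D, ∀ r ∈ W0, σ • r = r)
    (hfix : ∀ w ∈ W, (∀ σ : ↥D, σ • w = w) → w ∈ W0)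
    (θ : Qb) (hθ : θ ∈ W) (hθu : ∀ σ : ↥D, σ ∉ G' → ∃ u ∈ W, u * (σ • θ - θ) = 1)
    [IsLocalRing W0] (π : W0) (hπ : IsLocalRing.maximalIdeal W0 = Ideal.span {π})
    (hπW : ∀ s ∈ W, (π : Qb) * s ≠ 1)
    {K₁ : Type*} [Field K₁] [Algebra W0 K₁] [Algebra ℚ K₁] [Algebra K₁ Qb]
    [IsScalarTower W0 K₁ Qb] [IsScalarTower ℚ K₁ Qb] {ℓ₁ : W0}
    (h : DensePair (ratLocalizedAt ℓ) ℚ W0 K₁ (ratLocP ℓ) ℓ₁)
    (hD : ∀ z : Qb, (∀ σ ∈ D, σ z = z) → z ∈ Set.range (algebraMap K₁ Qb))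
    (H : Subalgebra W (↥(Submodule.torsionBy ℤ (JZero p) ((ℓ : ℤ) ^ k)) → Qb))
    (hHfg : (Subalgebra.toSubmodule H).FG)
    (hHequiv : ∀ τ ∈ G', ∀ f ∈ H, ∀ v, f (torsAct p ℓ k (τ : GQ) v) = (τ : GQ) (f v))
    (hHsep : ∀ v w, v ≠ w → ∃ f ∈ H, f v ≠ f w)
    (hHΔ : IsDeltaStable H) :
    ∃ (H : Type) (_ : CommRing H) (_ : HopfAlgebra (GaloisRep.ratLocalizedAt ℓ) H),
      Module.Finite (GaloisRep.ratLocalizedAt ℓ) H ∧ Module.Flat (GaloisRep.ratLocalizedAt ℓ) H ∧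
      Coalgebra.IsCocomm (GaloisRep.ratLocalizedAt ℓ) H ∧
      ∃ e : WithConv (H →ₐ[GaloisRep.ratLocalizedAt ℓ] AlgebraicClosure ℚ) ≃
          ↥(Submodule.torsionBy ℤ (JZero p) ((ℓ : ℤ) ^ k)),
        (∀ f g, e (f * g) = e f + e g) ∧
        ∀ (σ : AlgebraicClosure ℚ ≃ₐ[ℚ] AlgebraicClosure ℚ)
          (f g : WithConv (H →ₐ[GaloisRep.ratLocalizedAt ℓ] AlgebraicClosure ℚ)),
          (∀ h : H, g h = σ (f h)) → ((e g : JZero p)) = σ • (e f : JZero p) := by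
  letI := torsDistribMulAction p ℓ k
  -- `G'`-equivariance in conjugation form
  have hHfix : ∀ τ ∈ G', ∀ f ∈ H, conjHom τ f = f := by
    intro τ hτ f hf
    funext v
    rw [conjHom_apply]
    have h1 := hHequiv τ⁻¹ (G'.inv_mem hτ) f hf v
    have h2 : f (τ⁻¹ • v) = (τ⁻¹ : ↥D) • f v := h1
    rw [h2, smul_inv_smul]
  obtain ⟨H0, hH0fix, hH0Δ, hH0fg, -, hH0sep⟩ :=
    exists_fixed_deltaStable_of_theta G' W W0 hW0W hWstab hG'W hW0fix hfix θ hθ hθu π hπ hπW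
      H hHfix hHfg hHΔ
  have hsepH : ∀ v w, (∀ f ∈ H, f v = f w) → v = w := by
    intro v w hvw
    by_contra hne
    obtain ⟨f, hf, hfne⟩ := hHsep v w hne
    exact hfne (hvw f hf)
  have hsep0 := hH0sep hsepH
  refine S19_of_local_order p ℓ k hfinV h D hD H0 hH0fg ?_ ?_ hH0Δ
  · intro f hf σ hσ v
    have h1 := congrFun (hH0fix f hf ⟨σ, hσ⟩) (torsAct p ℓ k σ v)
    rw [conjHom_apply] at h1
    have h2 : (⟨σ, hσ⟩ : ↥D)⁻¹ • torsAct p ℓ k σ v = v := by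
      show (⟨σ, hσ⟩ : ↥D)⁻¹ • ((⟨σ, hσ⟩ : ↥D) • v) = v
      rw [inv_smul_smul]
    rw [h2] at h1
    exact h1.symm
  · intro v w hne
    by_contra hcon
    exact hne (hsep0 v w fun f hf => by_contra fun hfne => hcon ⟨f, hf, hfne⟩)

end Fermat.Agent.FF2.Desc
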