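import Mathlib
import Fermat.Agent.FF2.Desc.S19Level
import Fermat.Agent.FF2.Base.Lambda1Dvr

/-!
# MOONSHOT S19: the frozen S19 from an order over `Λ_1 = decompRing (padicPlace ℓ)`

Instantiation of `S19_of_local_order` / `S19_of_level_order` at helper5's base ring
`Λ_1 = Lam1 ℓ = ℚ̄ ∩ ℤ_ℓ`, `K_1 = K1 ℓ = ℚ̄^{D_P}`, `D = DP ℓ = D_P`, `P = padicPlace ℓ`
(`FF2/Base/{Lambda1,Lambda1Dvr}.lean`, vendored byte-identically from origin/helper5 @824b18ed).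
-/

set_option autoImplicit false
set_option linter.unusedSectionVars false
set_option linter.style.haveILetI false

namespace Fermat.Agent.FF2.Desc

open ModularCurve GaloisRep Fermat.Agent.FF2.Order Fermat.Agent.FF2.R0 Fermat.Agent.FF2.R2
  Fermat.Agent.FF2.Base

local notation "Qb" => AlgebraicClosure ℚ
local notation "GQ" => (AlgebraicClosure ℚ ≃ₐ[ℚ] AlgebraicClosure ℚ)

variable (p : ℕ) [NeZero p] (ℓ : ℕ) [Fact ℓ.Prime] (k : ℕ)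

/-- The fixed field of `D_P` lies in `K_1` (by definition). -/
theorem hD_lam1 (z : Qb) (hz : ∀ σ ∈ DP ℓ, σ z = z) :
    z ∈ Set.range (algebraMap (K1 ℓ) Qb) :=
  ⟨⟨z, (mem_K1 ℓ).2 hz⟩, rfl⟩

/-- **The frozen S19 from ONE order over `Λ_1`**: finitely generated as a module, `D_P`-equivariant,
point-separating, `Δ`-stable. -/
theorem S19_of_lam1_order
    (hfinV : Finite ↥(Submodule.torsionBy ℤ (JZero p) ((ℓ : ℤ) ^ k)))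
    (H₁ : Subalgebra (Lam1 ℓ) (↥(Submodule.torsionBy ℤ (JZero p) ((ℓ : ℤ) ^ k)) → Qb))
    (hfg : (Subalgebra.toSubmodule H₁).FG)
    (hequiv₁ : ∀ f ∈ H₁, ∀ σ ∈ DP ℓ, ∀ v, f (torsAct p ℓ k σ v) = σ (f v))
    (hsep₁ : ∀ v w, v ≠ w → ∃ f ∈ H₁, f v ≠ f w)
    (hΔ₁ : IsDeltaStable H₁) :
    ∃ (H : Type) (_ : CommRing H) (_ : HopfAlgebra (GaloisRep.ratLocalizedAt ℓ) H),
      Module.Finite (GaloisRep.ratLocalizedAt ℓ) H ∧ Module.Flat (GaloisRep.ratLocalizedAt ℓ) H ∧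
      Coalgebra.IsCocomm (GaloisRep.ratLocalizedAt ℓ) H ∧
      ∃ e : WithConv (H →ₐ[GaloisRep.ratLocalizedAt ℓ] AlgebraicClosure ℚ) ≃
          ↥(Submodule.torsionBy ℤ (JZero p) ((ℓ : ℤ) ^ k)),
        (∀ f g, e (f * g) = e f + e g) ∧
        ∀ (σ : AlgebraicClosure ℚ ≃ₐ[ℚ] AlgebraicClosure ℚ)
          (f g : WithConv (H →ₐ[GaloisRep.ratLocalizedAt ℓ] AlgebraicClosure ℚ)),
          (∀ h : H, g h = σ (f h)) → ((e g : JZero p)) = σ • (e f : JZero p) :=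
  S19_of_local_order p ℓ k hfinV (lam1DensePair ℓ) (DP ℓ) (hD_lam1 ℓ) H₁ hfg hequiv₁ hsep₁ hΔ₁

/-- **The frozen S19 from ONE order over a level ring `W ⊇ Λ_1`** (`W = Λ_ζ`), equivariant for a
normal subgroup `G'` of finite index of `D_P` (`G' = Γ_ζ`), under the hypotheses of helper12's
finite Galois descent. -/
theorem S19_of_lam_level_order
    (hfinV : Finite ↥(Submodule.torsionBy ℤ (JZero p) ((ℓ : ℤ) ^ k)))
    (G' : Subgroup ↥(DP ℓ)) [G'.Normal] [Fintype (↥(DP ℓ) ⧸ G')]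
    (W : Subring Qb) (hW0W : Lam1 ℓ ≤ W)
    (hWstab : ∀ σ : ↥(DP ℓ), ∀ w ∈ W, σ • w ∈ W)
    (hG'W : ∀ τ ∈ G', ∀ w ∈ W, τ • w = w)
    (hfix : ∀ w ∈ W, (∀ σ : ↥(DP ℓ), σ • w = w) → w ∈ Lam1 ℓ)
    (θ : Qb) (hθ : θ ∈ W) (hθu : ∀ σ : ↥(DP ℓ), σ ∉ G' → ∃ u ∈ W, u * (σ • θ - θ) = 1)
    (hπW : ∀ s ∈ W, (ℓ : Qb) * s ≠ 1)
    (H : Subalgebra W (↥(Submodule.torsionBy ℤ (JZero p) ((ℓ : ℤ) ^ k)) → Qb))
    (hHfg : (Subalgebra.toSubmodule H).FG)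
    (hHequiv : ∀ τ ∈ G', ∀ f ∈ H, ∀ v, f (torsAct p ℓ k (τ : GQ) v) = (τ : GQ) (f v))
    (hHsep : ∀ v w, v ≠ w → ∃ f ∈ H, f v ≠ f w)
    (hHΔ : IsDeltaStable H) :
    ∃ (H : Type) (_ : CommRing H) (_ : HopfAlgebra (GaloisRep.ratLocalizedAt ℓ) H),
      Module.Finite (GaloisRep.ratLocalizedAt ℓ) H ∧ Module.Flat (GaloisRep.ratLocalizedAt ℓ) H ∧
      Coalgebra.IsCocomm (GaloisRep.ratLocalizedAt ℓ) H ∧
      ∃ e : WithConv (H →ₐ[GaloisRep.ratLocalizedAt ℓ] AlgebraicClosure ℚ) ≃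
          ↥(Submodule.torsionBy ℤ (JZero p) ((ℓ : ℤ) ^ k)),
        (∀ f g, e (f * g) = e f + e g) ∧
        ∀ (σ : AlgebraicClosure ℚ ≃ₐ[ℚ] AlgebraicClosure ℚ)
          (f g : WithConv (H →ₐ[GaloisRep.ratLocalizedAt ℓ] AlgebraicClosure ℚ)),
          (∀ h : H, g h = σ (f h)) → ((e g : JZero p)) = σ • (e f : JZero p) := by
  refine S19_of_level_order p ℓ k hfinV (DP ℓ) G' W (Lam1 ℓ) hW0W hWstab hG'W ?_ hfix θ hθ hθu
    (ℓ : Lam1 ℓ) (maximalIdeal_lam1 ℓ) ?_ (lam1DensePair ℓ) (hD_lam1 ℓ) H hHfg hHequiv hHsep hHΔ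
  · intro σ r hr
    exact ((mem_Lam1 ℓ).mp hr).2 |> fun h => (mem_K1 ℓ).mp h σ.1 σ.2
  · intro s hs
    have : (((ℓ : Lam1 ℓ) : Lam1 ℓ) : Qb) = (ℓ : Qb) := by simp
    rw [this]
    exact hπW s hs

end Fermat.Agent.FF2.Desc
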